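import Fermat.Agent.S42x.Asm.H5_Gal
import Fermat.Agent.S42x.Cyc.H10_Cyc

/-!
# W8 / W9 (GALn) = (S31-SPEC): the Galois package on `p`-power torsion of `J₀(N)` (helper5)

Everything is derived from `S37x.Asm.StSpec N p` alone (no primality of `p`, no finiteness of
`J[p^n]`, no commutation of Hecke operators with the Galois action).

* `h5n_inertia`  : inertia at `ℓ ∤ N p` acts trivially on `p`-power torsion;
* `h5n_frob`     : EVERY Frobenius element `σ` at `ℓ ∤ N p` satisfies `σ² - T_ℓ σ + ℓ = 0` on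
                   `p`-power torsion;
* `h5n_frob_inv` : `σ + ℓ σ⁻¹ = T_ℓ` there;
* `h5n_dickson`  : `σ ^ k + ℓ ^ k σ ^ (-k) = D_k(T_ℓ, ℓ)` there (`D_k = Polynomial.dickson 1 ℓ k`);
* `h5n_level`    : the finite-level step: a normal number field `K` such that every `g` which
                   agrees with `σ ^ k` on `K` satisfies `g + ℓ ^ k g⁻¹ = D_k(T_ℓ, ℓ)` on all Galois
                   translates of finitely many given `p`-power torsion classes, and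
                   `g ζ = ζ ^ (ℓ ^ k)` on `μ_(p^m)`;
* `h5n_hc`, `h5n_hc'` : the `J`-side of the Hecke congruence (HC).
-/

set_option autoImplicit false
set_option synthInstance.maxHeartbeats 400000
set_option maxHeartbeats 1000000

open ModularCurve AlgebraicCurve Polynomial

noncomputable section

namespace Fermat.Agent.S30x.GALn.H5

open Fermat.Agent.S42x.Asm.H5
open Fermat.Agent.S42x.Asm (GQ)

local notation "Qbar" => AlgebraicClosure ℚ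

/-! ### The abstract Dickson recursion, elementwise -/

/-- **Dickson, elementwise.** `F`, `F'` mutually inverse self-maps of `J`, `W` a set stable
under both, `T` an endomorphism with `F + δ F' = T` on `W`.  Then
`F ^ k + δ ^ k F' ^ k = D_k(T, δ)` on `W`.  No commutation of `T` with `F` and no additivity of
`F` is needed. -/
theorem h5n_dickson_elt {J : Type*} [AddCommGroup J] (F F' : J → J) (T : Module.End ℤ J) (δ : ℤ)
    (W : Set J) (hF : ∀ x ∈ W, F x ∈ W) (hF' : ∀ x ∈ W, F' x ∈ W)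
    (h1 : ∀ x, F (F' x) = x) (h2 : ∀ x, F' (F x) = x)
    (hrel : ∀ x ∈ W, F x + δ • F' x = T x) (k : ℕ) :
    ∀ x ∈ W, F^[k] x + δ ^ k • F'^[k] x = aeval T (dickson 1 δ k) x := by
  have hFk : ∀ (k : ℕ), ∀ x ∈ W, F^[k] x ∈ W := by
    intro k
    induction k with
    | zero => intro x hx; simpa using hx
    | succ k ih =>
      intro x hx
      rw [Function.iterate_succ_apply']
      exact hF _ (ih x hx)
  have hF'k : ∀ (k : ℕ), ∀ x ∈ W, F'^[k] x ∈ W := by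
    intro k
    induction k with
    | zero => intro x hx; simpa using hx
    | succ k ih =>
      intro x hx
      rw [Function.iterate_succ_apply']
      exact hF' _ (ih x hx)
  have both : ∀ k : ℕ,
      (∀ x ∈ W, F^[k] x + δ ^ k • F'^[k] x = aeval T (dickson 1 δ k) x) ∧
      (∀ x ∈ W, F^[k + 1] x + δ ^ (k + 1) • F'^[k + 1] x =
        aeval T (dickson 1 δ (k + 1)) x) := by
    intro k
    induction k with
    | zero =>
      refine ⟨fun x _ => ?_, fun x hx => ?_⟩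
      · rw [dickson_zero]
        have : ((3 : ℤ[X]) - ((1 : ℕ) : ℤ[X])) = C (2 : ℤ) := by
          rw [Nat.cast_one]
          have : (C (2 : ℤ) : ℤ[X]) = 2 := by simp
          rw [this]
          norm_num
        rw [this, aeval_C, Module.algebraMap_end_apply]
        simp only [pow_zero, one_smul, Function.iterate_zero, id_eq]
        rw [two_smul]
      · rw [dickson_one, aeval_X]
        simpa using hrel x hx
    | succ k ih =>
      obtain ⟨h₀, h₁⟩ := ih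
      refine ⟨h₁, fun x hx => ?_⟩
      rw [dickson_add_two, map_sub, map_mul, map_mul, aeval_X, aeval_C]
      change _ = T (aeval T (dickson 1 δ (k + 1)) x) -
        ((algebraMap ℤ (Module.End ℤ J)) δ) (aeval T (dickson 1 δ k) x)
      rw [← h₁ x hx, ← h₀ x hx, Module.algebraMap_end_apply, map_add, map_zsmul,
        ← hrel _ (hFk (k + 1) x hx), ← hrel _ (hF'k (k + 1) x hx)]
      have e1 : F (F^[k + 1] x) = F^[k + 1 + 1] x :=
        (Function.iterate_succ_apply' F (k + 1) x).symm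
      have e2 : F' (F^[k + 1] x) = F^[k] x := by
        rw [Function.iterate_succ_apply', h2]
      have e3 : F (F'^[k + 1] x) = F'^[k] x := by
        rw [Function.iterate_succ_apply', h1]
      have e4 : F' (F'^[k + 1] x) = F'^[k + 1 + 1] x :=
        (Function.iterate_succ_apply' F' (k + 1) x).symm
      rw [e1, e2, e3, e4]
      have e5 : δ ^ (k + 1 + 1) = δ ^ (k + 1) * δ := pow_succ δ (k + 1)
      have e6 : δ ^ (k + 1) = δ ^ k * δ := pow_succ δ k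
      rw [e5]
      rw [e6]
      module
  exact (both k).1

/-! ### `p`-power torsion: inertia and Frobenius -/

variable {N p : ℕ} [NeZero N]

omit [NeZero N] in
/-- `p`-power torsion is stable under the Galois action. -/
theorem h5n_tors_smul (σ : GQ) {x : JZero N} (hx : ∃ n : ℕ, p ^ n • x = 0) :
    ∃ n : ℕ, p ^ n • (σ • x) = 0 := by
  obtain ⟨n, hn⟩ := hx
  exact ⟨n, by rw [← h5_smul_nsmul, hn, h5_smul_zero]⟩

/-- **(G1)** inertia at `ℓ ∤ N p` acts trivially on `p`-power torsion. -/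
theorem h5n_inertia (hSpec : Fermat.Agent.S37x.Asm.StSpec N p) {ℓ : ℕ} (hℓ : ℓ.Prime)
    (hℓN : ¬ ℓ ∣ N * p) (A : ValuationSubring Qbar) (hA : A.LiesOverPrime ℓ) (τ : GQ)
    (hτ : τ ∈ A.inertiaSubgroupIn ℚ) (x : JZero N) (hx : ∃ n : ℕ, p ^ n • x = 0) :
    τ • x = x := by
  obtain ⟨M, _, ρ, hinj, hin, -⟩ := hSpec ℓ hℓ hℓN A hA
  have h1 : ρ (τ • x - x) = 0 := by rw [map_sub, hin τ hτ x, sub_self]
  obtain ⟨n, hn⟩ := hx
  have h2 : ∃ n : ℕ, p ^ n • (τ • x - x) = 0 :=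
    ⟨n, by rw [nsmul_sub, ← h5_smul_nsmul, hn, h5_smul_zero, sub_self]⟩
  exact sub_eq_zero.mp (hinj _ h2 h1)

/-- **(G2)** EVERY Frobenius element at `ℓ ∤ N p` satisfies the Eichler–Shimura relation on
`p`-power torsion. -/
theorem h5n_frob (hSpec : Fermat.Agent.S37x.Asm.StSpec N p) {ℓ : ℕ} (hℓ : ℓ.Prime)
    (hℓN : ¬ ℓ ∣ N * p) (A : ValuationSubring Qbar) (hA : A.LiesOverPrime ℓ) (σ : GQ)
    (hσ : A.IsFrobeniusAt σ ℓ) (x : JZero N) (hx : ∃ n : ℕ, p ^ n • x = 0) :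
    σ • σ • x - heckeOperatorBar N ⟨ℓ, hℓ⟩ (σ • x) + ℓ • x = 0 := by
  obtain ⟨M, _, ρ, hinj, hin, σ₀, hσ₀, hES⟩ := hSpec ℓ hℓ hℓN A hA
  have hτ : σ₀⁻¹ * σ ∈ A.inertiaSubgroupIn ℚ := h5_frob_inv_mul_mem_inertia A σ₀ σ hσ₀ hσ
  have htriv : ∀ y : JZero N, (∃ n : ℕ, p ^ n • y = 0) → σ • y = σ₀ • y := by
    intro y hy
    have h1 := h5n_inertia hSpec hℓ hℓN A hA _ hτ y hy
    calc σ • y = (σ₀ * (σ₀⁻¹ * σ)) • y := by rw [mul_inv_cancel_left]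
      _ = σ₀ • ((σ₀⁻¹ * σ) • y) := mul_smul _ _ _
      _ = σ₀ • y := by rw [h1]
  obtain ⟨n, hn⟩ := hx
  have hσx : p ^ n • (σ₀ • x) = 0 := by rw [← h5_smul_nsmul, hn, h5_smul_zero]
  rw [htriv x ⟨n, hn⟩, htriv (σ₀ • x) ⟨n, hσx⟩]
  have h1 := hES x
  have h2 : ∃ n : ℕ, p ^ n •
      (σ₀ • σ₀ • x - heckeOperatorBar N ⟨ℓ, hℓ⟩ (σ₀ • x) + ℓ • x) = 0 := by
    refine ⟨n, ?_⟩
    rw [nsmul_add, nsmul_sub, ← h5_smul_nsmul, hσx, h5_smul_zero, ← map_nsmul, hσx,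
      map_zero, smul_comm (p ^ n) ℓ x, hn, smul_zero, sub_self, add_zero]
  exact hinj _ h2 h1

/-- **(G3)** `σ + ℓ σ⁻¹ = T_ℓ` on `p`-power torsion, for every Frobenius element `σ` at
`ℓ ∤ N p`. -/
theorem h5n_frob_inv (hSpec : Fermat.Agent.S37x.Asm.StSpec N p) {ℓ : ℕ} (hℓ : ℓ.Prime)
    (hℓN : ¬ ℓ ∣ N * p) (A : ValuationSubring Qbar) (hA : A.LiesOverPrime ℓ) (σ : GQ)
    (hσ : A.IsFrobeniusAt σ ℓ) (x : JZero N) (hx : ∃ n : ℕ, p ^ n • x = 0) :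
    σ • x + ℓ • σ⁻¹ • x = heckeOperatorBar N ⟨ℓ, hℓ⟩ x := by
  have h := h5n_frob hSpec hℓ hℓN A hA σ hσ (σ⁻¹ • x) (h5n_tors_smul σ⁻¹ hx)
  rw [smul_inv_smul] at h
  have h' : σ • x + ℓ • σ⁻¹ • x - heckeOperatorBar N ⟨ℓ, hℓ⟩ x = 0 := by
    rw [← h]
    abel
  exact sub_eq_zero.mp h'

omit [NeZero N] in
theorem h5n_iterate_smul (σ : GQ) (k : ℕ) (x : JZero N) :
    (fun y : JZero N => σ • y)^[k] x = (σ ^ k) • x := by
  induction k with
  | zero => simp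
  | succ k ih => rw [Function.iterate_succ_apply', ih, pow_succ', mul_smul]

/-- **(G4)** Dickson: `σ ^ k + ℓ ^ k σ ^ (-k) = D_k(T_ℓ, ℓ)` on `p`-power torsion, for every
Frobenius element `σ` at `ℓ ∤ N p`. -/
theorem h5n_dickson (hSpec : Fermat.Agent.S37x.Asm.StSpec N p) {ℓ : ℕ} (hℓ : ℓ.Prime)
    (hℓN : ¬ ℓ ∣ N * p) (A : ValuationSubring Qbar) (hA : A.LiesOverPrime ℓ) (σ : GQ)
    (hσ : A.IsFrobeniusAt σ ℓ) (k : ℕ) (x : JZero N) (hx : ∃ n : ℕ, p ^ n • x = 0) :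
    (σ ^ k) • x + ℓ ^ k • (σ ^ k)⁻¹ • x =
      aeval (heckeOperatorBar N ⟨ℓ, hℓ⟩) (dickson 1 (ℓ : ℤ) k) x := by
  have key := h5n_dickson_elt (fun y : JZero N => σ • y) (fun y : JZero N => σ⁻¹ • y)
    (heckeOperatorBar N ⟨ℓ, hℓ⟩) (ℓ : ℤ)
    {y : JZero N | ∃ n : ℕ, p ^ n • y = 0}
    (fun y hy => h5n_tors_smul σ hy) (fun y hy => h5n_tors_smul σ⁻¹ hy)
    (fun y => smul_inv_smul σ y)
    (fun y => inv_smul_smul σ y)
    (fun y hy => by
      rw [natCast_zsmul]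
      exact h5n_frob_inv hSpec hℓ hℓN A hA σ hσ y hy) k x hx
  rw [h5n_iterate_smul, h5n_iterate_smul, ← Nat.cast_pow, natCast_zsmul, inv_pow] at key
  exact key

/-! ### Roots of unity -/

/-- Congruent multiples agree on `n`-torsion. -/
theorem h5n_nsmul_congr {J : Type*} [AddCommGroup J] {a b n : ℕ} (h : a ≡ b [MOD n]) (z : J)
    (hz : n • z = 0) : a • z = b • z := by
  have key : ∀ c : ℕ, c • z = (c % n) • z := by
    intro c
    conv_lhs => rw [← Nat.div_add_mod c n]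
    rw [add_smul, mul_smul, smul_comm, hz, smul_zero, zero_add]
  rw [key a, key b, h]

/-- A Frobenius element at `A` over `ℓ` raises every `n`-th root of unity to the `ℓ`-th power
(`n` prime to `ℓ`); powers. -/
theorem h5n_frob_pow_root {ℓ : ℕ} (A : ValuationSubring Qbar) (hA : A.LiesOverPrime ℓ) (σ : GQ)
    (hσ : A.IsFrobeniusAt σ ℓ) (n : ℕ) (hn : Nat.Coprime n ℓ) (k : ℕ) (ζ : Qbar)
    (hζ : ζ ^ n = 1) : (σ ^ k) ζ = ζ ^ (ℓ ^ k) := by
  have hres := Fermat.Agent.S42x.Cyc.H10.h10_natCast_residue_ne_zero A hA n hn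
  induction k with
  | zero => simp
  | succ k ih =>
    rw [pow_succ', AlgEquiv.mul_apply, ih, map_pow,
      Fermat.Agent.S42x.Cyc.H10.h10_frobenius_root A σ hσ n hres ζ hζ, ← pow_mul, pow_succ']

/-- Inertia at `A` over `q` fixes every `n`-th root of unity (`n` prime to `q`). -/
theorem h5n_inertia_root {q : ℕ} (A : ValuationSubring Qbar) (hA : A.LiesOverPrime q) (τ : GQ)
    (hτ : τ ∈ A.inertiaSubgroupIn ℚ) (n : ℕ) (hn : Nat.Coprime n q) (ζ : Qbar)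
    (hζ : ζ ^ n = 1) : τ ζ = ζ :=
  Fermat.Agent.S42x.Cyc.H10.h10_inertia_root A τ hτ n
    (Fermat.Agent.S42x.Cyc.H10.h10_natCast_residue_ne_zero A hA n hn) ζ hζ

theorem h5n_exists_zeta (n : ℕ) (hn : n ≠ 0) : ∃ ζ : Qbar, IsPrimitiveRoot ζ n := by
  have : NeZero n := ⟨hn⟩
  have : NeZero (n : Qbar) := ⟨Nat.cast_ne_zero.mpr hn⟩
  exact HasEnoughRootsOfUnity.exists_primitiveRoot Qbar n

/-- Exponents of equal powers of a primitive root agree modulo the order. -/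
theorem h5n_modEq_of_pow_eq {ζ : Qbar} {n : ℕ} (hn : n ≠ 0) (hζ : IsPrimitiveRoot ζ n) {a b : ℕ}
    (h : ζ ^ a = ζ ^ b) : a ≡ b [MOD n] := by
  have hζ0 : ζ ≠ 0 := hζ.ne_zero hn
  have h1 : (Units.mk0 ζ hζ0) ^ a = (Units.mk0 ζ hζ0) ^ b := Units.ext (by simpa using h)
  have h2 := pow_eq_pow_iff_modEq.mp h1
  rwa [← orderOf_units, Units.val_mk0, ← hζ.eq_orderOf] at h2

omit [NeZero N] in
theorem h5n_coprime {ℓ : ℕ} (hℓ : ℓ.Prime) (hℓN : ¬ ℓ ∣ N * p) (m : ℕ) :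
    Nat.Coprime (p ^ m) ℓ := by
  have h1 : ¬ ℓ ∣ p := fun h => hℓN (dvd_mul_of_dvd_right h N)
  exact (((Nat.Prime.coprime_iff_not_dvd hℓ).mpr h1).pow_right m).symm

/-- A normal subfield is stable under every automorphism. -/
theorem h5n_mem_of_normal (K : IntermediateField ℚ Qbar) [Normal ℚ K] (h : GQ) {a : Qbar}
    (ha : a ∈ K) : h a ∈ K := by
  have h1 := AlgEquiv.restrictNormal_commutes h K ⟨a, ha⟩
  have h2 : h a = ((h.restrictNormal K ⟨a, ha⟩ : K) : Qbar) := h1.symm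
  rw [h2]
  exact (h.restrictNormal K ⟨a, ha⟩).2

/-! ### The finite-level step -/

/-- **(G5)** the finite-level step.  For finitely many `p`-power torsion classes `x i` there is a
normal number field `K ⊇ K'` containing `μ_(p^m)` and fixing all Galois translates of the `x i`,
such that every `g` which agrees on `K` with the `k`-th power of a Frobenius element `σ` at
`ℓ ∤ N p` satisfies `g ζ = ζ ^ (ℓ ^ k)` on `μ_(p^m)` and `g + ℓ ^ k g⁻¹ = D_k(T_ℓ, ℓ)` on all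
translates of the `x i`. -/
theorem h5n_level (hSpec : Fermat.Agent.S37x.Asm.StSpec N p) (hp : p ≠ 0) {ι : Type*} [Finite ι]
    (x : ι → JZero N) (hx : ∀ i, ∃ n : ℕ, p ^ n • x i = 0) (m : ℕ)
    (K' : IntermediateField ℚ Qbar) [FiniteDimensional ℚ K'] :
    ∃ K : IntermediateField ℚ Qbar, FiniteDimensional ℚ K ∧ Normal ℚ K ∧ K' ≤ K ∧
      (∀ ζ : Qbar, ζ ^ (p ^ m) = 1 → ζ ∈ K) ∧
      (∀ σ : GQ, (∀ a ∈ K, σ a = a) → ∀ (h : GQ) (i : ι), σ • h • x i = h • x i) ∧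
      ∀ (g : GQ) (ℓ : ℕ) (hℓ : ℓ.Prime), ¬ ℓ ∣ N * p → ∀ A : ValuationSubring Qbar,
        A.LiesOverPrime ℓ → ∀ σ : GQ, A.IsFrobeniusAt σ ℓ → ∀ k : ℕ,
          (∀ a ∈ K, g a = (σ ^ k) a) →
          (∀ ζ : Qbar, ζ ^ (p ^ m) = 1 → g ζ = ζ ^ (ℓ ^ k)) ∧
          ∀ (h : GQ) (i : ι), g • h • x i + ℓ ^ k • g⁻¹ • h • x i =
            aeval (heckeOperatorBar N ⟨ℓ, hℓ⟩) (dickson 1 (ℓ : ℤ) k) (h • x i) := by
  obtain ⟨K₀, hK₀, h₀⟩ := h5_stab_fin N x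
  have hpm : p ^ m ≠ 0 := pow_ne_zero m hp
  obtain ⟨ζ₀, hζ₀⟩ := h5n_exists_zeta (p ^ m) hpm
  have hint : IsIntegral ℚ ζ₀ :=
    (hζ₀.isIntegral (Nat.pos_of_ne_zero hpm)).tower_top
  have hKζ : FiniteDimensional ℚ (IntermediateField.adjoin ℚ {ζ₀}) :=
    IntermediateField.adjoin.finiteDimensional hint
  have hL₁ : FiniteDimensional ℚ ↥(K₀ ⊔ K') := IntermediateField.finiteDimensional_sup K₀ K'
  have hL : FiniteDimensional ℚ ↥(K₀ ⊔ K' ⊔ IntermediateField.adjoin ℚ {ζ₀}) :=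
    IntermediateField.finiteDimensional_sup (K₀ ⊔ K') (IntermediateField.adjoin ℚ {ζ₀})
  set L : IntermediateField ℚ Qbar := K₀ ⊔ K' ⊔ IntermediateField.adjoin ℚ {ζ₀} with hLdef
  have hnQ : Normal ℚ Qbar := h5_normal_rat
  set K : IntermediateField ℚ Qbar := IntermediateField.normalClosure ℚ L Qbar with hKdef
  have hKn : Normal ℚ K := normalClosure.normal ℚ L Qbar
  have hLK : L ≤ K := IntermediateField.le_normalClosure L
  have hK₀K : K₀ ≤ K := (le_sup_left.trans le_sup_left : K₀ ≤ L).trans hLK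
  have hK'K : K' ≤ K := (le_sup_right.trans le_sup_left : K' ≤ L).trans hLK
  have hζK : IntermediateField.adjoin ℚ {ζ₀} ≤ K := (le_sup_right : _ ≤ L).trans hLK
  have hroots : ∀ ζ : Qbar, ζ ^ (p ^ m) = 1 → ζ ∈ K := by
    intro ζ hζ
    have : NeZero (p ^ m) := ⟨hpm⟩
    obtain ⟨i, -, rfl⟩ := hζ₀.eq_pow_of_pow_eq_one hζ
    exact pow_mem (hζK (IntermediateField.mem_adjoin_simple_self ℚ ζ₀)) i
  have htrans : ∀ σ : GQ, (∀ a ∈ K, σ a = a) → ∀ (h : GQ) (i : ι), σ • h • x i = h • x i := by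
    intro σ hσ h i
    have h1 := h5_conj_fixes K σ h hσ
    have h2 := h₀ (h⁻¹ * σ * h) (fun a ha => h1 a (hK₀K ha)) i
    calc σ • h • x i = h • ((h⁻¹ * σ * h) • x i) := by
          rw [← mul_smul, ← mul_smul]
          congr 1
          group
      _ = h • x i := by rw [h2]
  refine ⟨K, normalClosure.is_finiteDimensional ℚ L Qbar, hKn, hK'K, hroots, htrans, ?_⟩
  intro g ℓ hℓ hℓN A hA σ hσ k hg
  refine ⟨fun ζ hζ => ?_, fun h i => ?_⟩
  · rw [hg ζ (hroots ζ hζ)]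
    exact h5n_frob_pow_root A hA σ hσ (p ^ m) (h5n_coprime hℓ hℓN m) k ζ hζ
  · have hy : ∃ n : ℕ, p ^ n • (h • x i) = 0 := h5n_tors_smul h (hx i)
    -- `g` acts like `σ ^ k` on the translates
    have e1 : g • h • x i = (σ ^ k) • h • x i := by
      have hfix : ∀ a ∈ K, ((σ ^ k)⁻¹ * g) a = a := by
        intro a ha
        change (σ ^ k)⁻¹ (g a) = a
        rw [hg a ha]
        exact (σ ^ k).symm_apply_apply a
      have := htrans _ hfix h i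
      rw [mul_smul] at this
      exact (inv_smul_eq_iff.mp this)
    have e2 : g⁻¹ • h • x i = (σ ^ k)⁻¹ • h • x i := by
      have hfix : ∀ a ∈ K, ((σ ^ k) * g⁻¹) a = a := by
        intro a ha
        change (σ ^ k) (g⁻¹ a) = a
        rw [← hg _ (h5n_mem_of_normal K g⁻¹ ha)]
        exact g.apply_symm_apply a
      have := htrans _ hfix h i
      rw [mul_smul] at this
      exact (inv_smul_eq_iff.mpr this.symm).symm
    rw [e1, e2]
    exact h5n_dickson hSpec hℓ hℓN A hA σ hσ k (h • x i) hy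

/-! ### The `J`-side of the Hecke congruence (HC) -/

omit [NeZero N] in
/-- Core of (HC): if `g` and `g'` act in the same way on the translates `y` of `p ^ m`-torsion
classes and on `μ_(p^m)`, their Dickson operators agree on `y`. -/
theorem h5n_hc_core (hp : p ≠ 0) (m : ℕ) (y : JZero N) (g g' : GQ)
    (hy : p ^ m • (g⁻¹ • y) = 0) (e1 : g' • y = g • y) (e2 : g'⁻¹ • y = g⁻¹ • y)
    (hroot : ∀ ζ : Qbar, ζ ^ (p ^ m) = 1 → g' ζ = g ζ) {a b : ℕ}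
    (ha : ∀ ζ : Qbar, ζ ^ (p ^ m) = 1 → g ζ = ζ ^ a)
    (hb : ∀ ζ : Qbar, ζ ^ (p ^ m) = 1 → g' ζ = ζ ^ b)
    {D D' : JZero N} (hD : g • y + a • g⁻¹ • y = D) (hD' : g' • y + b • g'⁻¹ • y = D') :
    D = D' := by
  have hpm : p ^ m ≠ 0 := pow_ne_zero m hp
  obtain ⟨ζ₀, hζ₀⟩ := h5n_exists_zeta (p ^ m) hpm
  have h1 : ζ₀ ^ a = ζ₀ ^ b := by
    rw [← ha ζ₀ hζ₀.pow_eq_one, ← hb ζ₀ hζ₀.pow_eq_one, hroot ζ₀ hζ₀.pow_eq_one]
  have h2 : a ≡ b [MOD p ^ m] := h5n_modEq_of_pow_eq hpm hζ₀ h1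
  rw [← hD, ← hD', e1, e2, h5n_nsmul_congr h2 _ hy]

/-- **(G6)** the `J`-side of the Hecke congruence (HC), form `g * τ`.  For finitely many
`p ^ m`-torsion classes there is a normal number field `K ⊇ K'` such that for every `g`, every
`τ` in an inertia group at a prime `q ∤ N p` and all Frobenius data `(ℓ, A, σ, k)`,
`(ℓ', A', σ', k')` at primes not dividing `N p` with `g = σ ^ k` and `g * τ = σ' ^ k'` on `K`,
the operators `D_k(T_ℓ, ℓ)` and `D_k'(T_ℓ', ℓ')` agree on all Galois translates of the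
classes. -/
theorem h5n_hc (hSpec : Fermat.Agent.S37x.Asm.StSpec N p) (hp : p ≠ 0) {ι : Type*} [Finite ι]
    (x : ι → JZero N) (m : ℕ) (hxm : ∀ i, p ^ m • x i = 0)
    (K' : IntermediateField ℚ Qbar) [FiniteDimensional ℚ K'] :
    ∃ K : IntermediateField ℚ Qbar, FiniteDimensional ℚ K ∧ Normal ℚ K ∧ K' ≤ K ∧
      (∀ ζ : Qbar, ζ ^ (p ^ m) = 1 → ζ ∈ K) ∧
      (∀ σ : GQ, (∀ a ∈ K, σ a = a) → ∀ (h : GQ) (i : ι), σ • h • x i = h • x i) ∧
      ∀ (q : ℕ), q.Prime → ¬ q ∣ N * p → ∀ B : ValuationSubring Qbar, B.LiesOverPrime q →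
        ∀ τ ∈ B.inertiaSubgroupIn ℚ, ∀ g : GQ,
        ∀ (ℓ : ℕ) (hℓ : ℓ.Prime), ¬ ℓ ∣ N * p → ∀ A : ValuationSubring Qbar,
          A.LiesOverPrime ℓ → ∀ σ : GQ, A.IsFrobeniusAt σ ℓ → ∀ k : ℕ,
          (∀ a ∈ K, g a = (σ ^ k) a) →
        ∀ (ℓ' : ℕ) (hℓ' : ℓ'.Prime), ¬ ℓ' ∣ N * p → ∀ A' : ValuationSubring Qbar,
          A'.LiesOverPrime ℓ' → ∀ σ' : GQ, A'.IsFrobeniusAt σ' ℓ' → ∀ k' : ℕ,
          (∀ a ∈ K, (g * τ) a = (σ' ^ k') a) →
        ∀ (h : GQ) (i : ι),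
          aeval (heckeOperatorBar N ⟨ℓ, hℓ⟩) (dickson 1 (ℓ : ℤ) k) (h • x i) =
            aeval (heckeOperatorBar N ⟨ℓ', hℓ'⟩) (dickson 1 (ℓ' : ℤ) k') (h • x i) := by
  obtain ⟨K, hK, hKn, hK'K, hroots, htrans, hrel⟩ :=
    h5n_level hSpec hp x (fun i => ⟨m, hxm i⟩) m K'
  refine ⟨K, hK, hKn, hK'K, hroots, htrans, ?_⟩
  intro q hq hqN B hB τ hτ g ℓ hℓ hℓN A hA σ hσ k hg ℓ' hℓ' hℓ'N A' hA' σ' hσ' k' hg' h i
  obtain ⟨ha, hD⟩ := hrel g ℓ hℓ hℓN A hA σ hσ k hg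
  obtain ⟨hb, hD'⟩ := hrel (g * τ) ℓ' hℓ' hℓ'N A' hA' σ' hσ' k' hg'
  have hy : p ^ m • (h • x i) = 0 := by rw [← h5_smul_nsmul, hxm i, h5_smul_zero]
  have hgy : p ^ m • (g⁻¹ • h • x i) = 0 := by rw [← h5_smul_nsmul, hy, h5_smul_zero]
  have hτinv : τ⁻¹ ∈ B.inertiaSubgroupIn ℚ := inv_mem hτ
  refine h5n_hc_core hp m (h • x i) g (g * τ) hgy ?_ ?_ ?_ ha hb (hD h i) (hD' h i)
  · rw [mul_smul, h5n_inertia hSpec hq hqN B hB τ hτ _ ⟨m, hy⟩]
  · rw [mul_inv_rev, mul_smul, h5n_inertia hSpec hq hqN B hB τ⁻¹ hτinv _ ⟨m, hgy⟩]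
  · intro ζ hζ
    change g (τ ζ) = g ζ
    rw [h5n_inertia_root B hB τ hτ (p ^ m) (h5n_coprime hq hqN m) ζ hζ]

/-- **(G6')** the `J`-side of the Hecke congruence (HC), form `τ * g`. -/
theorem h5n_hc' (hSpec : Fermat.Agent.S37x.Asm.StSpec N p) (hp : p ≠ 0) {ι : Type*} [Finite ι]
    (x : ι → JZero N) (m : ℕ) (hxm : ∀ i, p ^ m • x i = 0)
    (K' : IntermediateField ℚ Qbar) [FiniteDimensional ℚ K'] :
    ∃ K : IntermediateField ℚ Qbar, FiniteDimensional ℚ K ∧ Normal ℚ K ∧ K' ≤ K ∧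
      (∀ ζ : Qbar, ζ ^ (p ^ m) = 1 → ζ ∈ K) ∧
      (∀ σ : GQ, (∀ a ∈ K, σ a = a) → ∀ (h : GQ) (i : ι), σ • h • x i = h • x i) ∧
      ∀ (q : ℕ), q.Prime → ¬ q ∣ N * p → ∀ B : ValuationSubring Qbar, B.LiesOverPrime q →
        ∀ τ ∈ B.inertiaSubgroupIn ℚ, ∀ g : GQ,
        ∀ (ℓ : ℕ) (hℓ : ℓ.Prime), ¬ ℓ ∣ N * p → ∀ A : ValuationSubring Qbar,
          A.LiesOverPrime ℓ → ∀ σ : GQ, A.IsFrobeniusAt σ ℓ → ∀ k : ℕ,
          (∀ a ∈ K, g a = (σ ^ k) a) →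
        ∀ (ℓ' : ℕ) (hℓ' : ℓ'.Prime), ¬ ℓ' ∣ N * p → ∀ A' : ValuationSubring Qbar,
          A'.LiesOverPrime ℓ' → ∀ σ' : GQ, A'.IsFrobeniusAt σ' ℓ' → ∀ k' : ℕ,
          (∀ a ∈ K, (τ * g) a = (σ' ^ k') a) →
        ∀ (h : GQ) (i : ι),
          aeval (heckeOperatorBar N ⟨ℓ, hℓ⟩) (dickson 1 (ℓ : ℤ) k) (h • x i) =
            aeval (heckeOperatorBar N ⟨ℓ', hℓ'⟩) (dickson 1 (ℓ' : ℤ) k') (h • x i) := by
  obtain ⟨K, hK, hKn, hK'K, hroots, htrans, hrel⟩ :=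
    h5n_level hSpec hp x (fun i => ⟨m, hxm i⟩) m K'
  refine ⟨K, hK, hKn, hK'K, hroots, htrans, ?_⟩
  intro q hq hqN B hB τ hτ g ℓ hℓ hℓN A hA σ hσ k hg ℓ' hℓ' hℓ'N A' hA' σ' hσ' k' hg' h i
  obtain ⟨ha, hD⟩ := hrel g ℓ hℓ hℓN A hA σ hσ k hg
  obtain ⟨hb, hD'⟩ := hrel (τ * g) ℓ' hℓ' hℓ'N A' hA' σ' hσ' k' hg'
  have hy : p ^ m • (h • x i) = 0 := by rw [← h5_smul_nsmul, hxm i, h5_smul_zero]
  have hgy : p ^ m • (g⁻¹ • h • x i) = 0 := by rw [← h5_smul_nsmul, hy, h5_smul_zero]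
  have hgy' : p ^ m • (g • h • x i) = 0 := by rw [← h5_smul_nsmul, hy, h5_smul_zero]
  have hτinv : τ⁻¹ ∈ B.inertiaSubgroupIn ℚ := inv_mem hτ
  refine h5n_hc_core hp m (h • x i) g (τ * g) hgy ?_ ?_ ?_ ha hb (hD h i) (hD' h i)
  · rw [mul_smul, h5n_inertia hSpec hq hqN B hB τ hτ _ ⟨m, hgy'⟩]
  · rw [mul_inv_rev, mul_smul, h5n_inertia hSpec hq hqN B hB τ⁻¹ hτinv _ ⟨m, hy⟩]
  · intro ζ hζ
    change τ (g ζ) = g ζ
    exact h5n_inertia_root B hB τ hτ (p ^ m) (h5n_coprime hq hqN m) (g ζ)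
      (by rw [← map_pow, hζ, map_one])

end Fermat.Agent.S30x.GALn.H5
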