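import Fermat.Agent.S30x.GALn.H5_Pow
import Fermat.Agent.S30x.Asm.Defs

/-!
# W8 (GALn) in the chief's spelling (helper5)

`h5n_stGalN : p.Prime → S37x.Asm.StSpec N p → S30x.Asm.StGalN N p`.
-/

set_option autoImplicit false
set_option synthInstance.maxHeartbeats 400000
set_option maxHeartbeats 1000000

open ModularCurve

noncomputable section

namespace Fermat.Agent.S30x.GALn.H5

/-- A prime `q ≠ p` not dividing `N` does not divide `N * p` (`p` prime). -/
theorem h5n_not_dvd_mul {N p q : ℕ} (hp : p.Prime) (hq : q.Prime) (hqN : ¬ q ∣ N) (hqp : q ≠ p) :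
    ¬ q ∣ N * p := by
  intro h
  rcases (Nat.Prime.dvd_mul hq).mp h with h1 | h1
  · exact hqN h1
  · exact hqp ((Nat.prime_dvd_prime_iff_eq hq hp).mp h1)

/-- **(GALn)** in the spelling of `S30x/Asm/Defs`. -/
theorem h5n_stGalN {N p : ℕ} [NeZero N] (hp : p.Prime)
    (hSpec : Fermat.Agent.S37x.Asm.StSpec N p) : Fermat.Agent.S30x.Asm.StGalN N p := by
  refine ⟨?_, ?_⟩
  · intro q hq hqN hqp A hA τ hτ n y hy
    exact h5n_inertia hSpec hq (h5n_not_dvd_mul hp hq hqN hqp) A hA τ hτ y ⟨n, hy⟩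
  · intro ℓ hℓ hℓN hℓp A hA σ hσ n y hy
    exact h5n_frob_inv hSpec hℓ (h5n_not_dvd_mul hp hℓ hℓN hℓp) A hA σ hσ y ⟨n, hy⟩

end Fermat.Agent.S30x.GALn.H5
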